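import Mathlib

set_option autoImplicit false
set_option linter.unusedSectionVars false

/-!
# Finiteness of Selmer groups `K(S, n)`

For a Dedekind domain `R` with fraction field `K`, finite class group and finitely generated unit
group (e.g. the ring of integers of a number field), a finite set `S` of primes and `n > 0`, the
Selmer group `K(S, n) = {x ∈ Kˣ / (Kˣ)ⁿ : n ∣ ord_v x for all v ∉ S}` is finite.
-/

namespace Fermat.Agent.S55.H901

open IsDedekindDomain HeightOneSpectrum FractionalIdeal
open scoped nonZeroDivisors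

variable {R : Type*} [CommRing R] [IsDedekindDomain R] {K : Type*} [Field K]
  [Algebra R K] [IsFractionRing R K]

/-- the valuation of `x` in terms of the multiplicity of `v` in the principal fractional ideal -/
lemma valuationOfNeZero_eq_count (v : HeightOneSpectrum R) (x : Kˣ) :
    v.valuationOfNeZero x
      = Multiplicative.ofAdd (-(count K v (spanSingleton R⁰ (x : K)))) := by
  classical
  have hx0 : spanSingleton R⁰ (x : K) ≠ 0 := by
    rw [Ne, spanSingleton_eq_zero_iff]; exact x.ne_zero
  set a := (IsLocalization.sec R⁰ (x : K)).1 with ha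
  set b := (IsLocalization.sec R⁰ (x : K)).2 with hb
  have hspec : (x : K) * algebraMap R K b = algebraMap R K a := IsLocalization.sec_spec R⁰ (x : K)
  have hb0 : algebraMap R K (b : R) ≠ 0 :=
    IsFractionRing.to_map_ne_zero_of_mem_nonZeroDivisors b.2
  have hI : spanSingleton R⁰ (x : K)
      = spanSingleton R⁰ ((algebraMap R K) (b : R))⁻¹ * ↑(Ideal.span {a}) := by
    rw [coeIdeal_span_singleton, spanSingleton_mul_spanSingleton]
    congr 1
    field_simp
    exact hspec
  rw [count_well_defined K v hx0 hI]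
  change v.valuationOfNeZeroToFun x = _
  rw [valuationOfNeZeroToFun]
  simp only [← ha, ← hb]
  congr 1
  ring

lemma valuationOfNeZeroMod_mk_eq_one_iff (v : HeightOneSpectrum R) (n : ℕ) (x : Kˣ) :
    v.valuationOfNeZeroMod n
        (QuotientGroup.mk x : Kˣ ⧸ (powMonoidHom n : Kˣ →* Kˣ).range) = 1
      ↔ (n : ℤ) ∣ Multiplicative.toAdd (v.valuationOfNeZero x) := by
  have key : v.valuationOfNeZeroMod n
        (QuotientGroup.mk x : Kˣ ⧸ (powMonoidHom n : Kˣ →* Kˣ).range)
      = Multiplicative.ofAdd ((Int.quotientZMultiplesNatEquivZMod n)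
          (QuotientAddGroup.mk (Multiplicative.toAdd (v.valuationOfNeZero x)))) := rfl
  rw [key]
  constructor
  · intro h
    have h1 : (Int.quotientZMultiplesNatEquivZMod n)
        (QuotientAddGroup.mk (Multiplicative.toAdd (v.valuationOfNeZero x))) = 0 := h
    rw [AddEquiv.map_eq_zero_iff, QuotientAddGroup.eq_zero_iff, Int.mem_zmultiples_iff] at h1
    exact h1
  · intro h
    have h1 : (Int.quotientZMultiplesNatEquivZMod n)
        (QuotientAddGroup.mk (Multiplicative.toAdd (v.valuationOfNeZero x))) = 0 := by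
      rw [AddEquiv.map_eq_zero_iff, QuotientAddGroup.eq_zero_iff, Int.mem_zmultiples_iff]
      exact h
    rw [h1]
    rfl

/-- a nonzero fractional ideal all of whose multiplicities are divisible by `n` is an
`n`-th power -/
lemma exists_pow_eq_of_dvd_count {n : ℕ} (I : FractionalIdeal R⁰ K) (hI : I ≠ 0)
    (h : ∀ v : HeightOneSpectrum R, (n : ℤ) ∣ count K v I) :
    ∃ J : FractionalIdeal R⁰ K, J ^ n = I := by
  classical
  set exps : HeightOneSpectrum R → ℤ := fun v => count K v I / n with hexps
  have hfin : (Function.mulSupport fun v : HeightOneSpectrum R =>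
      (v.asIdeal : FractionalIdeal R⁰ K) ^ exps v).Finite := by
    have h0 := finite_factors (K := K) I
    rw [Filter.eventually_cofinite] at h0
    refine h0.subset ?_
    intro v hv
    simp only [Function.mem_mulSupport, ne_eq] at hv
    simp only [Set.mem_ofPred_eq]
    intro hc
    apply hv
    rw [hexps]
    simp [hc]
  refine ⟨∏ᶠ v : HeightOneSpectrum R, (v.asIdeal : FractionalIdeal R⁰ K) ^ exps v, ?_⟩
  rw [finprod_pow hfin]
  conv_rhs => rw [← finprod_heightOneSpectrum_factorization' (K := K) hI]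
  apply finprod_congr
  intro v
  rw [← zpow_natCast, ← zpow_mul, hexps]
  congr 1
  exact Int.ediv_mul_cancel (h v)

/-- an element of `Kˣ` whose class lies in `K(∅, n)` generates the `n`-th power of a
fractional ideal -/
lemma exists_pow_eq_spanSingleton {n : ℕ} (hn : 0 < n) (x : Kˣ)
    (hx : (QuotientGroup.mk x : Kˣ ⧸ (powMonoidHom n : Kˣ →* Kˣ).range) ∈
      selmerGroup (R := R) (K := K) (S := (∅ : Set (HeightOneSpectrum R))) (n := n)) :
    ∃ J : (FractionalIdeal R⁰ K)ˣ, (J : FractionalIdeal R⁰ K) ^ n = spanSingleton R⁰ (x : K) := by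
  have hx0 : spanSingleton R⁰ (x : K) ≠ 0 := by
    rw [Ne, spanSingleton_eq_zero_iff]; exact x.ne_zero
  have hdvd : ∀ v : HeightOneSpectrum R, (n : ℤ) ∣ count K v (spanSingleton R⁰ (x : K)) := by
    intro v
    have h1 := (valuationOfNeZeroMod_mk_eq_one_iff v n x).1 (hx v (Set.notMem_empty v))
    rw [valuationOfNeZero_eq_count, toAdd_ofAdd] at h1
    exact (Int.dvd_neg).1 h1
  obtain ⟨J, hJ⟩ := exists_pow_eq_of_dvd_count _ hx0 hdvd
  have hJ0 : J ≠ 0 := by
    rintro rfl
    rw [zero_pow hn.ne'] at hJ
    exact hx0 hJ.symm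
  exact ⟨Units.mk0 J hJ0, hJ⟩

section Main

variable (R K)

/-- the unit group modulo `n`-th powers is finite when the unit group is finitely generated -/
lemma finite_units_mod_pow [Group.FG Rˣ] {n : ℕ} (hn : 0 < n) :
    Finite (Rˣ ⧸ (powMonoidHom n : Rˣ →* Rˣ).range) := by
  apply CommGroup.finite_of_fg_isMulTorsion
  intro g
  obtain ⟨u, rfl⟩ := QuotientGroup.mk_surjective g
  rw [isOfFinOrder_iff_pow_eq_one]
  refine ⟨n, hn, ?_⟩
  rw [← QuotientGroup.mk_pow, QuotientGroup.eq_one_iff]
  exact ⟨u, rfl⟩

variable {R K}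

/-- `K(∅, n)` is finite -/
theorem selmerGroup_empty_finite [Finite (ClassGroup R)] [Group.FG Rˣ] {n : ℕ} (hn : 0 < n) :
    Finite (selmerGroup (R := R) (K := K) (S := (∅ : Set (HeightOneSpectrum R))) (n := n)) := by
  classical
  have : Fact (0 < n) := ⟨hn⟩
  have := finite_units_mod_pow R hn
  set G₀ := selmerGroup (R := R) (K := K) (S := (∅ : Set (HeightOneSpectrum R))) (n := n)
    with hG₀
  -- the image of the units is finite
  have hH : (Set.range (selmerGroup.fromUnitLift (R := R) (K := K) (n := n))).Finite :=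
    Set.finite_range _
  -- representatives and roots
  have hrep : ∀ g : G₀, ∃ (x : Kˣ) (J : (FractionalIdeal R⁰ K)ˣ),
      (QuotientGroup.mk x : Kˣ ⧸ (powMonoidHom n : Kˣ →* Kˣ).range) = g.1 ∧
      (J : FractionalIdeal R⁰ K) ^ n = spanSingleton R⁰ (x : K) := by
    intro g
    obtain ⟨x, hx⟩ := QuotientGroup.mk_surjective g.1
    have hxm : (QuotientGroup.mk x : Kˣ ⧸ (powMonoidHom n : Kˣ →* Kˣ).range) ∈ G₀ := by
      rw [hx]; exact g.2
    obtain ⟨J, hJ⟩ := exists_pow_eq_spanSingleton hn x hxm
    exact ⟨x, J, hx, hJ⟩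
  choose xrep Jrep hxrep hJrep using hrep
  set c : G₀ → ClassGroup R := fun g => ClassGroup.mk K (Jrep g) with hc
  -- fibres of `c` lie in cosets of the image of the units
  have hfib : ∀ g g' : G₀, c g = c g' →
      g ∈ (fun h => h * g') '' Set.range (selmerGroup.fromUnitLift (R := R) (K := K) (n := n)) := by
    intro g g' hgg'
    have h1 : ClassGroup.mk K (Jrep g * (Jrep g')⁻¹) = 1 := by
      rw [map_mul, map_inv]
      change c g * (c g')⁻¹ = 1
      rw [hgg', mul_inv_cancel]
    rw [ClassGroup.mk_eq_one_iff] at h1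
    obtain ⟨y, hy⟩ := h1.principal
    have hy' : ((Jrep g * (Jrep g')⁻¹ : (FractionalIdeal R⁰ K)ˣ) : FractionalIdeal R⁰ K)
        = spanSingleton R⁰ y := by
      apply Subtype.coe_injective
      simp only [val_eq_coe, hy, coe_spanSingleton]
    have hy0 : y ≠ 0 := by
      rintro rfl
      rw [spanSingleton_zero] at hy'
      exact Units.ne_zero _ hy'
    have hJJ : (Jrep g : FractionalIdeal R⁰ K) = spanSingleton R⁰ y * (Jrep g') := by
      rw [← hy', Units.val_mul, mul_assoc, ← Units.val_mul, inv_mul_cancel, Units.val_one,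
        mul_one]
    have hspan : spanSingleton R⁰ ((xrep g : Kˣ) : K)
        = spanSingleton R⁰ (y ^ n * ((xrep g' : Kˣ) : K)) := by
      rw [← hJrep g, hJJ, mul_pow, hJrep g', spanSingleton_pow, spanSingleton_mul_spanSingleton]
    obtain ⟨u, hu⟩ := (spanSingleton_eq_spanSingleton (R := R)).1 hspan
    -- `u • x = y ^ n * x'`
    refine ⟨selmerGroup.fromUnitLift (R := R) (K := K) (n := n) (QuotientGroup.mk u⁻¹),
      ⟨⟨_, rfl⟩, ?_⟩⟩
    apply Subtype.ext
    rw [Subgroup.coe_mul, ← hxrep g, ← hxrep g']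
    have hlift : ((selmerGroup.fromUnitLift (R := R) (K := K) (n := n) (QuotientGroup.mk u⁻¹) :
        G₀) : Kˣ ⧸ (powMonoidHom n : Kˣ →* Kˣ).range)
        = QuotientGroup.mk (Units.map (algebraMap R K).toMonoidHom u⁻¹) := rfl
    rw [hlift, ← QuotientGroup.mk_mul, eq_comm, QuotientGroup.eq]
    refine ⟨(Units.mk0 y hy0)⁻¹, ?_⟩
    apply Units.ext
    simp only [powMonoidHom_apply, Units.val_mul, Units.val_pow_eq_pow_val, Units.val_inv_eq_inv_val,
      Units.val_mk0, Units.coe_map, MonoidHom.coe_coe, RingHom.toMonoidHom_eq_coe, map_inv]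
    have hu' : algebraMap R K (u : R) * ((xrep g : Kˣ) : K) = y ^ n * ((xrep g' : Kˣ) : K) := by
      rw [← hu, Units.smul_def, Algebra.smul_def]
    have hux : algebraMap R K (u : R) ≠ 0 := by
      intro h0
      have : algebraMap R K (u : R) * algebraMap R K ((u⁻¹ : Rˣ) : R) = 1 := by
        rw [← map_mul, Units.mul_inv, map_one]
      rw [h0, zero_mul] at this
      exact zero_ne_one this
    have hx'0 : ((xrep g' : Kˣ) : K) ≠ 0 := Units.ne_zero _
    have hx0 : ((xrep g : Kˣ) : K) ≠ 0 := Units.ne_zero _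
    have hyn : y ^ n ≠ 0 := pow_ne_zero n hy0
    field_simp
    linear_combination hu'
  -- conclusion
  rw [← Set.finite_univ_iff]
  refine Set.Finite.of_finite_fibers c (Set.toFinite _) ?_
  rintro cls ⟨g', -, rfl⟩
  refine (hH.image (fun h => h * g')).subset ?_
  rintro g ⟨-, hg⟩
  exact hfib g g' hg

/-- **Finiteness of the Selmer group** `K(S, n)` for a finite set `S` of primes and `n > 0`,
over a Dedekind domain with finite class group and finitely generated unit group. -/
theorem selmerGroup_finite_of_fg [Finite (ClassGroup R)] [Group.FG Rˣ]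
    {S : Set (HeightOneSpectrum R)} (hS : S.Finite) {n : ℕ} (hn : 0 < n) :
    Finite (selmerGroup (R := R) (K := K) (S := S) (n := n)) := by
  classical
  have : NeZero n := ⟨hn.ne'⟩
  have : Finite S := hS.to_subtype
  have h0 := selmerGroup_empty_finite (R := R) (K := K) hn
  set f := selmerGroup.valuation (R := R) (K := K) (S := S) (n := n) with hf
  -- the kernel is finite
  have hker : (f.ker : Set (selmerGroup (R := R) (K := K) (S := S) (n := n))).Finite := by
    rw [hf, selmerGroup.valuation_ker_eq]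
    have hinj : Set.InjOn (fun g : selmerGroup (R := R) (K := K) (S := S) (n := n) => g.1)
        ((selmerGroup (R := R) (K := K) (S := (∅ : Set (HeightOneSpectrum R))) (n := n)).subgroupOf
          (selmerGroup (R := R) (K := K) (S := S) (n := n)) : Set _) :=
      fun a _ b _ hab => Subtype.ext hab
    refine Set.Finite.of_injOn (t := ((selmerGroup (R := R) (K := K)
      (S := (∅ : Set (HeightOneSpectrum R))) (n := n) : Subgroup _) : Set _)) ?_ hinj
      (Set.finite_coe_iff.1 h0)
    intro g hg
    exact Subgroup.mem_subgroupOf.1 hg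
  rw [← Set.finite_univ_iff]
  refine Set.Finite.of_finite_fibers f (Set.toFinite _) ?_
  rintro b ⟨g', -, rfl⟩
  refine (hker.image (fun h => h * g')).subset ?_
  rintro g ⟨-, hg⟩
  refine ⟨g * g'⁻¹, ?_, by simp⟩
  rw [SetLike.mem_coe, MonoidHom.mem_ker, map_mul, map_inv]
  have : f g = f g' := hg
  rw [this, mul_inv_cancel]

end Main

section NumberField

open NumberField

variable {F : Type*} [Field F] [NumberField F]

/-- **Finiteness of the Selmer group** `F(S, n)` of a number field `F`, for a finite set `S` of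
primes and `n > 0`. -/
theorem selmerGroup_finite {S : Set (HeightOneSpectrum (𝓞 F))} (hS : S.Finite) {n : ℕ}
    (hn : 0 < n) :
    Finite (selmerGroup (R := 𝓞 F) (K := F) (S := S) (n := n)) := by
  have : Group.FG (𝓞 F)ˣ := Group.fg_iff_monoid_fg.2 inferInstance
  exact selmerGroup_finite_of_fg hS hn

end NumberField

end Fermat.Agent.S55.H901
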