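import Fermat.Agent.S55.H901.H1Fin
import Fermat.Agent.S55.Bridge.H594.Unram

/-!
# S55 / G5: finiteness of `H¹(G_S, M)` — unconditional form

`UnramClassicalSpec S` is discharged by helper594's B10 (`Bridge/H594/Unram.lean`), giving

* `finiteDimensional_continuousH1S` : `H¹(G_S, M)` is finite-dimensional,
* `finiteDimensional_sha₁`, `finiteDimensional_sha₁_dualTwist`.
-/

set_option autoImplicit false
set_option linter.style.haveILetI false
set_option linter.unusedSectionVars false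

open IntermediateField groupCohomology ExtCitation IsDedekindDomain
open scoped NumberField

namespace Fermat.Agent.S55.H901

open Fermat.Agent.S55.Bridge

/-- **B10-classical**, from helper594's `isUnramifiedOutside_iff_ramificationIdxIn`. -/
theorem unramClassicalSpec (S : Finset Nat.Primes) : UnramClassicalSpec S := by
  intro F hNF hF hgal w q hq hqS hqw
  haveI := hF.1
  have hqS' : (⟨q, hq⟩ : Nat.Primes) ∉ S := fun h => hqS ⟨q, hq⟩ h rfl
  have h1 := (H594.isUnramifiedOutside_iff_ramificationIdxIn F S).1 hF ⟨q, hq⟩ hqS'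
  haveI hgalg : IsGaloisGroup (F ≃ₐ[ℚ] F) ℤ (𝓞 F) :=
    IsGaloisGroup.of_isFractionRing (F ≃ₐ[ℚ] F) ℤ (𝓞 F) ℚ F
  haveI := w.isPrime
  haveI := H594.liesOver_span_of_natCast_mem F hq w.asIdeal hqw
  have hq0 : Ideal.span {(q : ℤ)} ≠ ⊥ := by
    rw [Ne, Ideal.span_singleton_eq_bot]
    exact_mod_cast hq.ne_zero
  rw [Ideal.ramificationIdx'_eq_ramificationIdx _ _ hq0,
    ← Ideal.ramificationIdxIn_eq_ramificationIdx (Ideal.span {(q : ℤ)}) w.asIdeal (F ≃ₐ[ℚ] F)]
  exact h1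

variable {p : ℕ} [Fact p.Prime]

/-- **G5**: `H¹(G_S, M)` is finite-dimensional. -/
theorem finiteDimensional_continuousH1S (S : Finset Nat.Primes) (hpS : pPrime p ∈ S)
    (M : Rep.{0, 0, 0} (ZMod p) (AlgebraicClosure ℚ ≃ₐ[ℚ] AlgebraicClosure ℚ))
    [FiniteDimensional (ZMod p) M]
    (hsm : ∀ m : M, ∃ F : IntermediateField ℚ (AlgebraicClosure ℚ), FiniteDimensional ℚ F ∧
      ∀ s ∈ F.fixingSubgroup, M.ρ s m = m)
    (hMur : ∀ q : Nat.Primes, q ∉ S → ∀ A : ValuationSubring (AlgebraicClosure ℚ),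
      A.LiesOverPrime (q : ℕ) → ∀ g ∈ A.inertiaSubgroupIn ℚ, M.ρ g = 1) :
    FiniteDimensional (ZMod p) (continuousH1S S M) :=
  finiteDimensional_continuousH1S_of S (unramClassicalSpec S) hpS M hsm hMur

/-- `H¹(G_S, M)` is a finite set. -/
theorem finite_continuousH1S (S : Finset Nat.Primes) (hpS : pPrime p ∈ S)
    (M : Rep.{0, 0, 0} (ZMod p) (AlgebraicClosure ℚ ≃ₐ[ℚ] AlgebraicClosure ℚ))
    [FiniteDimensional (ZMod p) M]
    (hsm : ∀ m : M, ∃ F : IntermediateField ℚ (AlgebraicClosure ℚ), FiniteDimensional ℚ F ∧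
      ∀ s ∈ F.fixingSubgroup, M.ρ s m = m)
    (hMur : ∀ q : Nat.Primes, q ∉ S → ∀ A : ValuationSubring (AlgebraicClosure ℚ),
      A.LiesOverPrime (q : ℕ) → ∀ g ∈ A.inertiaSubgroupIn ℚ, M.ρ g = 1) :
    Finite (continuousH1S S M) :=
  finite_continuousH1S_of S (unramClassicalSpec S) hpS M hsm hMur

/-- `Ш¹_S(M)` is finite-dimensional. -/
theorem finiteDimensional_sha₁ (S : Finset Nat.Primes) (hpS : pPrime p ∈ S)
    (M : Rep.{0, 0, 0} (ZMod p) (AlgebraicClosure ℚ ≃ₐ[ℚ] AlgebraicClosure ℚ))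
    [FiniteDimensional (ZMod p) M]
    (hsm : ∀ m : M, ∃ F : IntermediateField ℚ (AlgebraicClosure ℚ), FiniteDimensional ℚ F ∧
      ∀ s ∈ F.fixingSubgroup, M.ρ s m = m)
    (hMur : ∀ q : Nat.Primes, q ∉ S → ∀ A : ValuationSubring (AlgebraicClosure ℚ),
      A.LiesOverPrime (q : ℕ) → ∀ g ∈ A.inertiaSubgroupIn ℚ, M.ρ g = 1) :
    FiniteDimensional (ZMod p) (sha₁ S M) :=
  finiteDimensional_sha₁_of S (unramClassicalSpec S) hpS M hsm hMur

/-- `Ш¹_S(M*(1))` is finite-dimensional: the first of the three facts to which S55 reduces. -/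
theorem finiteDimensional_sha₁_dualTwist (S : Finset Nat.Primes) (hpS : pPrime p ∈ S)
    (M : Rep.{0, 0, 0} (ZMod p) (AlgebraicClosure ℚ ≃ₐ[ℚ] AlgebraicClosure ℚ))
    [FiniteDimensional (ZMod p) M]
    (hsm : ∀ m : M, ∃ F : IntermediateField ℚ (AlgebraicClosure ℚ), FiniteDimensional ℚ F ∧
      ∀ s ∈ F.fixingSubgroup, M.ρ s m = m)
    (hMur : ∀ q : Nat.Primes, q ∉ S → ∀ A : ValuationSubring (AlgebraicClosure ℚ),
      A.LiesOverPrime (q : ℕ) → ∀ g ∈ A.inertiaSubgroupIn ℚ, M.ρ g = 1) :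
    FiniteDimensional (ZMod p) (sha₁ S (M.dualTwist (cycloChar p))) :=
  finiteDimensional_sha₁ S hpS (M.dualTwist (cycloChar p)) (dualTwist_smooth M hsm)
    (dualTwist_unramified M S hpS hMur)

end Fermat.Agent.S55.H901
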