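import Fermat.Agent.S55.H901.H1FinCore
import Fermat.Agent.S55.Bridge.Cochain

/-!
# S55 / G5: Kummer generator of a character of `G_L` of finite level

`L ≤ F` finite extensions of `ℚ` inside `ℚ̄`, `F/ℚ` Galois, `ζ ∈ L` a primitive `p`-th root of
unity, `χ : G_ℚ → ZMod p` additive on `G_L` and constant modulo `G_F`.  Then there is
`β ∈ F`, `β ≠ 0`, `β^p ∈ L` with `s β = ζ^{χ(s)} β` for all `s ∈ G_L` (Hilbert 90).
-/

set_option autoImplicit false
set_option linter.style.haveILetI false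
set_option linter.unusedSectionVars false

open IntermediateField

namespace Fermat.Agent.S55.H901

open Fermat.Agent.S55.Bridge

/-- `u ^ p = 1` implies `u ^ (a + b).val = u ^ a.val * u ^ b.val` for `a b : ZMod p`. -/
theorem pow_val_add {G : Type*} [Monoid G] {p : ℕ} [NeZero p] {u : G} (hu : u ^ p = 1)
    (a b : ZMod p) : u ^ (a + b).val = u ^ a.val * u ^ b.val := by
  rw [ZMod.val_add, ← pow_eq_pow_mod _ hu, pow_add]

/-- **Kummer generator of a character.** -/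
theorem exists_kummer_generator {p : ℕ} [Fact p.Prime]
    (L F : IntermediateField ℚ (AlgebraicClosure ℚ)) [FiniteDimensional ℚ F] [IsGalois ℚ F]
    (hLF : L ≤ F) {ζ : AlgebraicClosure ℚ} (hζL : ζ ∈ L) (hζ : ζ ^ p = 1) (hζ0 : ζ ≠ 0)
    (χ : (AlgebraicClosure ℚ ≃ₐ[ℚ] AlgebraicClosure ℚ) → ZMod p)
    (hadd : ∀ s ∈ L.fixingSubgroup, ∀ t ∈ L.fixingSubgroup, χ (s * t) = χ s + χ t)
    (hconst : ∀ s ∈ L.fixingSubgroup, ∀ t ∈ F.fixingSubgroup, χ (s * t) = χ s) :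
    ∃ β : AlgebraicClosure ℚ, β ∈ F ∧ β ≠ 0 ∧ β ^ p ∈ L ∧
      ∀ s ∈ L.fixingSubgroup, s β = ζ ^ (χ s).val * β := by
  classical
  haveI : NeZero p := ⟨(Fact.out : p.Prime).ne_zero⟩
  have hχ1 : χ 1 = 0 := by
    have := hadd 1 (one_mem _) 1 (one_mem _)
    rw [mul_one] at this
    exact (add_eq_left.1 this.symm)
  -- restriction to `F`
  let ρF : (AlgebraicClosure ℚ ≃ₐ[ℚ] AlgebraicClosure ℚ) →* (F ≃ₐ[ℚ] F) :=
    AlgEquiv.restrictNormalHom (F := ℚ) (K₁ := AlgebraicClosure ℚ) F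
  have hρ : ∀ (s : AlgebraicClosure ℚ ≃ₐ[ℚ] AlgebraicClosure ℚ) (x : F),
      ((ρF s x : F) : AlgebraicClosure ℚ) = s (x : AlgebraicClosure ℚ) :=
    fun s x => AlgEquiv.restrictNormal_commutes s F x
  let T : Subgroup (F ≃ₐ[ℚ] F) := L.fixingSubgroup.map ρF
  let f : ↥L.fixingSubgroup →* ↥T := ρF.subgroupMap L.fixingSubgroup
  have hf : Function.Surjective f := ρF.subgroupMap_surjective L.fixingSubgroup
  have hfval : ∀ s : ↥L.fixingSubgroup, ((f s : ↥T) : F ≃ₐ[ℚ] F) = ρF (s : _) := fun s => rfl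
  -- the root of unity in `F`
  let ζF : Fˣ := Units.mk0 ⟨ζ, hLF hζL⟩ (fun h => hζ0 (congrArg Subtype.val h))
  have hζF : ζF ^ p = 1 := by
    apply Units.ext
    apply Subtype.ext
    simpa [ζF] using hζ
  -- the character with values in `Fˣ`
  let z₀ : ↥L.fixingSubgroup →* Fˣ :=
    { toFun := fun s => ζF ^ (χ (s : _)).val
      map_one' := by
        show ζF ^ (χ ((1 : ↥L.fixingSubgroup) : _)).val = 1
        rw [Subgroup.coe_one, hχ1, ZMod.val_zero, pow_zero]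
      map_mul' := fun s t => by
        show ζF ^ (χ ((s * t : ↥L.fixingSubgroup) : _)).val = _
        rw [Subgroup.coe_mul, hadd _ s.2 _ t.2, pow_val_add hζF] }
  have hker : f.ker ≤ z₀.ker := by
    intro s hs
    rw [MonoidHom.mem_ker] at hs ⊢
    have h1 : ρF (s : _) = 1 := by
      have := congrArg (Subtype.val) hs
      simpa [hfval] using this
    have hsF : (s : AlgebraicClosure ℚ ≃ₐ[ℚ] AlgebraicClosure ℚ) ∈ F.fixingSubgroup := by
      rw [IntermediateField.mem_fixingSubgroup_iff]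
      intro x hx
      have := hρ (s : _) ⟨x, hx⟩
      rw [h1] at this
      exact this.symm
    have h2 : χ (s : _) = 0 := by
      have := hconst 1 (one_mem _) _ hsF
      rw [one_mul, hχ1] at this
      exact this
    show ζF ^ (χ (s : _)).val = 1
    rw [h2, ZMod.val_zero, pow_zero]
  let z : ↥T →* Fˣ := (f.liftOfSurjective hf) ⟨z₀, hker⟩
  have hz₀ : ∀ s : ↥L.fixingSubgroup, z (f s) = z₀ s := fun s =>
    MonoidHom.liftOfRightInverse_comp_apply f _ _ ⟨z₀, hker⟩ s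
  -- `T` fixes `ζF`
  have hTζ : ∀ σ : ↥T, σ • ((ζF : Fˣ) : F) = ζF := by
    intro σ
    obtain ⟨s, rfl⟩ := hf σ
    apply Subtype.ext
    show ((ρF (s : _) (ζF : F) : F) : AlgebraicClosure ℚ) = _
    rw [hρ]
    exact (IntermediateField.mem_fixingSubgroup_iff _ _).1 s.2 ζ hζL
  have hzfix : ∀ σ τ : ↥T, σ • ((z τ : Fˣ) : F) = z τ := by
    intro σ τ
    obtain ⟨t, rfl⟩ := hf τ
    rw [hz₀]
    have h1 : ((z₀ t : Fˣ) : F) = ((ζF : Fˣ) : F) ^ (χ (t : _)).val :=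
      Units.val_pow_eq_pow_val _ _
    rw [h1, smul_pow', hTζ]
  obtain ⟨βF, hβ0, hβ⟩ := exists_ne_zero_forall_smul_eq z hzfix
  have hβs : ∀ s ∈ L.fixingSubgroup, s (βF : AlgebraicClosure ℚ) = ζ ^ (χ s).val * βF := by
    intro s hs
    have h1 := hβ (f ⟨s, hs⟩)
    rw [hz₀] at h1
    have h2 := congrArg (Subtype.val) h1
    have h3 : ((f ⟨s, hs⟩ • βF : F) : AlgebraicClosure ℚ) = s (βF : AlgebraicClosure ℚ) := hρ s βF
    rw [h3] at h2
    rw [h2]
    show (((ζF ^ (χ s).val : Fˣ) : F) * βF : F).1 = _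
    simp [ζF]
  refine ⟨βF, βF.2, fun h => hβ0 (Subtype.ext h), ?_, hβs⟩
  haveI := isGalois_Qbar
  rw [← InfiniteGalois.fixedField_fixingSubgroup L, IntermediateField.mem_fixedField_iff]
  intro s hs
  rw [map_pow, hβs s hs, mul_pow, ← pow_mul, mul_comm (χ s).val p, pow_mul, hζ, one_pow, one_mul]

end Fermat.Agent.S55.H901
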