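import Fermat.Agent.S55.H901.H1FinBound
import Fermat.Agent.S55.H901.H1FinChar
import Fermat.Agent.S55.Bridge.DualTwist

/-!
# S55 / G5: finiteness of `H¹(G_S, M)` in Prelude terms

`M` a finite-dimensional smooth `𝔽_p`-representation of `G_ℚ`, unramified outside `S ∋ p`.
Then `continuousH1S S M` (hence `sha₁ S M`) is finite-dimensional.

Proof: there is ONE finite extension `Lmax/ℚ` such that every `S`-level-constant 1-cocycle of
`M` vanishes on `G_{Lmax}` (`exists_level_bound`): on `G_L` (`L` a common Galois level of `M`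
and `μ_p`) a cocycle is a homomorphism of finite `S`-unramified level; each of its coordinates
is cut out by a Kummer generator `β`, `β^p ∈ L` (`exists_kummer_generator`), and all such `β`
lie in the bound field (`exists_bound_field`: finiteness of the Selmer group `L(S,p)`).
Hence all such cocycles factor through the finite set `G_ℚ / G_{Lmax}`.

The only input not proved here is `UnramClassicalSpec S` (B10-classical: Prelude-unramified
implies ramification index `1`).
-/

set_option autoImplicit false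
set_option linter.style.haveILetI false
set_option linter.unusedSectionVars false

open IntermediateField groupCohomology ExtCitation

namespace Fermat.Agent.S55.H901

open Fermat.Agent.S55.Bridge

variable {p : ℕ} [Fact p.Prime]

/-- **Uniform level bound.** -/
theorem exists_level_bound (S : Finset Nat.Primes) (hB : UnramClassicalSpec S)
    (hpS : pPrime p ∈ S)
    (M : Rep.{0, 0, 0} (ZMod p) (AlgebraicClosure ℚ ≃ₐ[ℚ] AlgebraicClosure ℚ))
    [FiniteDimensional (ZMod p) M]
    (hsm : ∀ m : M, ∃ F : IntermediateField ℚ (AlgebraicClosure ℚ), FiniteDimensional ℚ F ∧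
      ∀ s ∈ F.fixingSubgroup, M.ρ s m = m)
    (hMur : ∀ q : Nat.Primes, q ∉ S → ∀ A : ValuationSubring (AlgebraicClosure ℚ),
      A.LiesOverPrime (q : ℕ) → ∀ g ∈ A.inertiaSubgroupIn ℚ, M.ρ g = 1) :
    ∃ Lmax : IntermediateField ℚ (AlgebraicClosure ℚ), FiniteDimensional ℚ Lmax ∧
      ∀ c : cocycles₁ M, IsLevelConstantS₁ S c → ∀ s ∈ Lmax.fixingSubgroup, c s = 0 := by
  classical
  haveI : NeZero p := ⟨(Fact.out : p.Prime).ne_zero⟩
  haveI := isGalois_Qbar
  obtain ⟨L, hL, hLgal, hLM, hLcyc, -⟩ := exists_common_galois_level M S hpS hsm hMur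
  haveI := hL.1
  -- a primitive `p`-th root of unity, lying in `L`
  haveI : NeZero ((p : ℕ) : AlgebraicClosure ℚ) := ⟨by exact_mod_cast (Fact.out : p.Prime).ne_zero⟩
  obtain ⟨ζ, hζ⟩ := HasEnoughRootsOfUnity.exists_primitiveRoot (AlgebraicClosure ℚ) p
  have hζ0 : ζ ≠ 0 := hζ.ne_zero (Fact.out : p.Prime).ne_zero
  have hζL : ζ ∈ L := by
    rw [← InfiniteGalois.fixedField_fixingSubgroup L, IntermediateField.mem_fixedField_iff]
    intro s hs
    have h1 := (cycloChar_eq_one_iff p s).1 (hLcyc s hs) (hζ.isUnit (Fact.out : p.Prime).ne_zero).unit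
      (by
        rw [mem_rootsOfUnity]
        apply Units.ext
        simpa using hζ.pow_eq_one)
    simpa using h1
  obtain ⟨Lmax, hfin, hLLmax, hbound⟩ :=
    exists_bound_field S hB (Fact.out : p.Prime).pos L
  refine ⟨Lmax, hfin, fun c hc s hs => ?_⟩
  obtain ⟨F, hF, hFgal, hLF, hconst⟩ := (isLevelConstantS₁_iff_galois S c L hL).1 hc
  haveI := hF.1
  have hsL : s ∈ L.fixingSubgroup := IntermediateField.fixingSubgroup_antitone hLLmax hs
  have hcadd : ∀ s ∈ L.fixingSubgroup, ∀ t ∈ L.fixingSubgroup, c (s * t) = c s + c t := by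
    intro s hs t _
    rw [(mem_cocycles₁_iff c).1 c.2 s t, hLM s hs, add_comm]
    rfl
  rw [← Module.forall_dual_apply_eq_zero_iff (ZMod p)]
  intro φ
  obtain ⟨β, hβF, hβ0, hβL, hβs⟩ := exists_kummer_generator L F hLF hζL hζ.pow_eq_one hζ0
    (fun s => φ (c s))
    (fun s hs t ht => by rw [hcadd s hs t ht, map_add])
    (fun s _ t ht => by rw [hconst s t ht])
  have hβmax : β ∈ Lmax := hbound F hF hFgal hLF β hβF hβ0 hβL
  have h1 : s β = β := (IntermediateField.mem_fixingSubgroup_iff _ _).1 hs β hβmax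
  have h2 := hβs s hsL
  rw [h1] at h2
  have h3 : ζ ^ (φ (c s)).val = 1 := by
    have : ζ ^ (φ (c s)).val * β = 1 * β := by rw [one_mul]; exact h2.symm
    exact mul_right_cancel₀ hβ0 this
  have h4 : p ∣ (φ (c s)).val := (hζ.pow_eq_one_iff_dvd _).1 h3
  have h5 : (φ (c s)).val = 0 := Nat.eq_zero_of_dvd_of_lt h4 (ZMod.val_lt _)
  exact (ZMod.val_eq_zero _).1 h5

/-- The fixing subgroup of a finite extension has finite index in `G_ℚ`. -/
theorem finite_quotient_fixingSubgroup (E : IntermediateField ℚ (AlgebraicClosure ℚ))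
    [FiniteDimensional ℚ E] :
    Finite ((AlgebraicClosure ℚ ≃ₐ[ℚ] AlgebraicClosure ℚ) ⧸ E.fixingSubgroup) := by
  haveI := isAlgebraic_Qbar
  haveI := isGalois_Qbar
  exact Subgroup.quotient_finite_of_isOpen _ (IntermediateField.fixingSubgroup_isOpen E)

/-- If all `S`-level-constant cocycles vanish on `G_E` for one finite `E/ℚ`, then there are only
finitely many of them. -/
theorem finite_levelCocyclesS₁_of_bound (S : Finset Nat.Primes)
    (M : Rep.{0, 0, 0} (ZMod p) (AlgebraicClosure ℚ ≃ₐ[ℚ] AlgebraicClosure ℚ))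
    [FiniteDimensional (ZMod p) M]
    (E : IntermediateField ℚ (AlgebraicClosure ℚ)) [FiniteDimensional ℚ E]
    (h : ∀ c : cocycles₁ M, IsLevelConstantS₁ S c → ∀ s ∈ E.fixingSubgroup, c s = 0) :
    Finite (levelCocyclesS₁ S M) := by
  classical
  haveI := finite_quotient_fixingSubgroup E
  haveI : Finite M := Module.finite_of_finite (ZMod p)
  let Φ : levelCocyclesS₁ S M →
      ((AlgebraicClosure ℚ ≃ₐ[ℚ] AlgebraicClosure ℚ) ⧸ E.fixingSubgroup → M) :=
    fun c q => (c : cocycles₁ M) (Quotient.out q)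
  have hconst : ∀ (c : levelCocyclesS₁ S M) (g : AlgebraicClosure ℚ ≃ₐ[ℚ] AlgebraicClosure ℚ),
      (c : cocycles₁ M) (Quotient.out (QuotientGroup.mk g :
        (AlgebraicClosure ℚ ≃ₐ[ℚ] AlgebraicClosure ℚ) ⧸ E.fixingSubgroup)) = (c : cocycles₁ M) g := by
    intro c g
    obtain ⟨t, ht⟩ := QuotientGroup.mk_out_eq_mul E.fixingSubgroup g
    rw [ht, (mem_cocycles₁_iff (c : cocycles₁ M)).1 (c : cocycles₁ M).2 g t,
      h (c : cocycles₁ M) c.2 t t.2, map_zero, zero_add]
  refine Finite.of_injective Φ (fun c c' hcc' => ?_)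
  apply Subtype.ext
  apply cocycles₁_ext
  intro g
  rw [← hconst c g, ← hconst c' g]
  exact congrFun hcc' _

/-- **G5 (finiteness of `H¹(G_S, M)`), conditional on B10-classical.** -/
theorem finite_continuousH1S_of (S : Finset Nat.Primes) (hB : UnramClassicalSpec S)
    (hpS : pPrime p ∈ S)
    (M : Rep.{0, 0, 0} (ZMod p) (AlgebraicClosure ℚ ≃ₐ[ℚ] AlgebraicClosure ℚ))
    [FiniteDimensional (ZMod p) M]
    (hsm : ∀ m : M, ∃ F : IntermediateField ℚ (AlgebraicClosure ℚ), FiniteDimensional ℚ F ∧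
      ∀ s ∈ F.fixingSubgroup, M.ρ s m = m)
    (hMur : ∀ q : Nat.Primes, q ∉ S → ∀ A : ValuationSubring (AlgebraicClosure ℚ),
      A.LiesOverPrime (q : ℕ) → ∀ g ∈ A.inertiaSubgroupIn ℚ, M.ρ g = 1) :
    Finite (continuousH1S S M) := by
  obtain ⟨Lmax, hfin, hbound⟩ := exists_level_bound S hB hpS M hsm hMur
  haveI := hfin
  haveI := finite_levelCocyclesS₁_of_bound S M Lmax hbound
  let Ψ : levelCocyclesS₁ S M → continuousH1S S M :=
    fun c => ⟨(H1π M).hom (c : cocycles₁ M), Submodule.mem_map_of_mem c.2⟩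
  refine Finite.of_surjective Ψ ?_
  rintro ⟨x, hx⟩
  obtain ⟨c, hc, rfl⟩ := (mem_continuousH1S_iff S M x).1 hx
  exact ⟨⟨c, hc⟩, rfl⟩

/-- **G5**: `H¹(G_S, M)` is finite-dimensional (conditional on B10-classical). -/
theorem finiteDimensional_continuousH1S_of (S : Finset Nat.Primes) (hB : UnramClassicalSpec S)
    (hpS : pPrime p ∈ S)
    (M : Rep.{0, 0, 0} (ZMod p) (AlgebraicClosure ℚ ≃ₐ[ℚ] AlgebraicClosure ℚ))
    [FiniteDimensional (ZMod p) M]
    (hsm : ∀ m : M, ∃ F : IntermediateField ℚ (AlgebraicClosure ℚ), FiniteDimensional ℚ F ∧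
      ∀ s ∈ F.fixingSubgroup, M.ρ s m = m)
    (hMur : ∀ q : Nat.Primes, q ∉ S → ∀ A : ValuationSubring (AlgebraicClosure ℚ),
      A.LiesOverPrime (q : ℕ) → ∀ g ∈ A.inertiaSubgroupIn ℚ, M.ρ g = 1) :
    FiniteDimensional (ZMod p) (continuousH1S S M) := by
  haveI := finite_continuousH1S_of S hB hpS M hsm hMur
  exact Module.Finite.of_finite

/-- `Ш¹_S(M)` is finite-dimensional (conditional on B10-classical). -/
theorem finiteDimensional_sha₁_of (S : Finset Nat.Primes) (hB : UnramClassicalSpec S)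
    (hpS : pPrime p ∈ S)
    (M : Rep.{0, 0, 0} (ZMod p) (AlgebraicClosure ℚ ≃ₐ[ℚ] AlgebraicClosure ℚ))
    [FiniteDimensional (ZMod p) M]
    (hsm : ∀ m : M, ∃ F : IntermediateField ℚ (AlgebraicClosure ℚ), FiniteDimensional ℚ F ∧
      ∀ s ∈ F.fixingSubgroup, M.ρ s m = m)
    (hMur : ∀ q : Nat.Primes, q ∉ S → ∀ A : ValuationSubring (AlgebraicClosure ℚ),
      A.LiesOverPrime (q : ℕ) → ∀ g ∈ A.inertiaSubgroupIn ℚ, M.ρ g = 1) :
    FiniteDimensional (ZMod p) (sha₁ S M) := by
  haveI := finiteDimensional_continuousH1S_of S hB hpS M hsm hMur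
  exact Submodule.finiteDimensional_of_le (inf_le_left : sha₁ S M ≤ continuousH1S S M)

end Fermat.Agent.S55.H901
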