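import Fermat.Agent.S55.H901.H1FinCore
import Fermat.Agent.S55.Bridge.Cochain

/-!
# S55 / G5: the bound field

For a number field `L ⊂ ℚ̄` and `n > 0` there is ONE finite extension `Lmax ⊇ L` containing every
`β ∈ ℚ̄` with `βⁿ ∈ L` that lies in some finite Galois extension of `ℚ` unramified outside `S`
(in the sense of the Prelude).  This is Kummer theory + finiteness of the Selmer group `L(S, n)`.

The translation "Prelude-unramified ⇒ classically unramified (`e = 1`)" is isolated as the
hypothesis `UnramClassicalSpec S` (piece B10-classical of layer B).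
-/

set_option autoImplicit false
set_option linter.style.haveILetI false
set_option linter.unusedSectionVars false

open IsDedekindDomain HeightOneSpectrum IntermediateField
open scoped NumberField

namespace Fermat.Agent.S55.H901

/-- A finite subextension of `ℚ̄/ℚ` is a number field. -/
theorem numberField_of_finiteDimensional (F : IntermediateField ℚ (AlgebraicClosure ℚ))
    [FiniteDimensional ℚ F] : NumberField F :=
  { to_charZero := inferInstance, to_finiteDimensional := inferInstance }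

/-- Classical unramifiedness outside `S` of the number field `F`: every finite prime of `F` whose
residue characteristic is not in `S` has ramification index `1` over `ℤ`. -/
def ClassicalUnram (S : Finset Nat.Primes) (F : Type*) [Field F] [NumberField F] : Prop :=
  ∀ (w : HeightOneSpectrum (𝓞 F)) (q : ℕ), q.Prime → (∀ s ∈ S, (s : ℕ) ≠ q) →
    ((q : ℕ) : 𝓞 F) ∈ w.asIdeal → (Ideal.span {(q : ℤ)}).ramificationIdx' w.asIdeal = 1

/-- **B10-classical** (interface): a finite Galois extension of `ℚ` inside `ℚ̄` which is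
unramified outside `S` in the sense of the Prelude is classically unramified outside `S`. -/
def UnramClassicalSpec (S : Finset Nat.Primes) : Prop :=
  ∀ (F : IntermediateField ℚ (AlgebraicClosure ℚ)) [NumberField F],
    F.IsUnramifiedOutside S → IsGalois ℚ F → ClassicalUnram S F

/-- The primes of a number field above a finite set of rational primes form a finite set. -/
theorem finite_primes_above (S : Finset Nat.Primes) (L : Type*) [Field L] [NumberField L] :
    {v : HeightOneSpectrum (𝓞 L) | ∃ q ∈ S, (((q : Nat.Primes) : ℕ) : 𝓞 L) ∈ v.asIdeal}.Finite := by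
  have : {v : HeightOneSpectrum (𝓞 L) | ∃ q ∈ S, (((q : Nat.Primes) : ℕ) : 𝓞 L) ∈ v.asIdeal} =
      ⋃ q ∈ S, {v : HeightOneSpectrum (𝓞 L) |
        v.asIdeal ∣ Ideal.span {(((q : Nat.Primes) : ℕ) : 𝓞 L)}} := by
    ext v
    simp only [Set.mem_ofPred_eq, Set.mem_iUnion, exists_prop, Ideal.dvd_iff_le,
      Ideal.span_singleton_le_iff_mem]
  rw [this]
  refine Set.Finite.biUnion S.finite_toSet (fun q _ => Ideal.finite_factors ?_)
  rw [Ne, Ideal.zero_eq_bot, Ideal.span_singleton_eq_bot]
  exact_mod_cast q.2.ne_zero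

/-- **The bound field.** -/
theorem exists_bound_field (S : Finset Nat.Primes) (hB : UnramClassicalSpec S) {n : ℕ}
    (hn : 0 < n) (L : IntermediateField ℚ (AlgebraicClosure ℚ)) [FiniteDimensional ℚ L] :
    ∃ Lmax : IntermediateField ℚ (AlgebraicClosure ℚ), FiniteDimensional ℚ Lmax ∧ L ≤ Lmax ∧
      ∀ F : IntermediateField ℚ (AlgebraicClosure ℚ), F.IsUnramifiedOutside S → IsGalois ℚ F →
        L ≤ F → ∀ β : AlgebraicClosure ℚ, β ∈ F → β ≠ 0 → β ^ n ∈ L → β ∈ Lmax := by
  classical
  haveI : NumberField L := numberField_of_finiteDimensional L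
  obtain ⟨R, hR⟩ := exists_finset_selmer_reps (F := L) (finite_primes_above S L) hn
  set W : Set (AlgebraicClosure ℚ) :=
    {x | ∃ r ∈ R, x ^ n = (((r : Lˣ) : L) : AlgebraicClosure ℚ)} with hWdef
  have hW : W.Finite := by
    have : W = ⋃ r ∈ R, {x : AlgebraicClosure ℚ | x ^ n = (((r : Lˣ) : L) : AlgebraicClosure ℚ)} := by
      ext x
      simp only [hWdef, Set.mem_ofPred_eq, Set.mem_iUnion, exists_prop]
    rw [this]
    refine Set.Finite.biUnion R.finite_toSet (fun r _ => ?_)
    refine Set.Finite.subset (Polynomial.nthRoots n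
      (((r : Lˣ) : L) : AlgebraicClosure ℚ)).toFinset.finite_toSet ?_
    intro x hx
    simpa [Polynomial.mem_nthRoots hn] using hx
  haveI : Finite W := hW.to_subtype
  haveI : FiniteDimensional ℚ (adjoin ℚ W) :=
    finiteDimensional_adjoin (K := ℚ)
      (fun x _ => ((AlgebraicClosure.isAlgebraic ℚ).isAlgebraic x).isIntegral)
  refine ⟨L ⊔ adjoin ℚ W, finiteDimensional_sup _ _, le_sup_left, ?_⟩
  intro F hF hgal hLF β hβF hβ0 hβL
  haveI := hF.1
  haveI : NumberField F := numberField_of_finiteDimensional F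
  letI : Algebra L F := (inclusion hLF).toRingHom.toAlgebra
  have hb0 : (⟨β ^ n, hβL⟩ : L) ≠ 0 := by
    intro h
    have := congrArg (Subtype.val) h
    exact pow_ne_zero n hβ0 this
  have key : ∀ v : HeightOneSpectrum (𝓞 L),
      v ∉ {v : HeightOneSpectrum (𝓞 L) | ∃ q ∈ S, (((q : Nat.Primes) : ℕ) : 𝓞 L) ∈ v.asIdeal} →
      (n : ℤ) ∣ Multiplicative.toAdd (v.valuationOfNeZero (Units.mk0 _ hb0)) := by
    intro v hv
    refine dvd_toAdd_valuationOfNeZero_of_unramified (K := L) (E := F)
      {q : ℕ | ∃ s ∈ S, ((s : Nat.Primes) : ℕ) = q} ?_ v ?_ n (Units.mk0 _ hb0) ⟨β, hβF⟩ ?_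
    · intro w q hq hqS hqw
      exact hB F hF hgal w q hq (fun s hs h => hqS ⟨s, hs, h⟩) hqw
    · rintro q ⟨s, hs, rfl⟩ hmem
      exact hv ⟨s, hs, hmem⟩
    · apply Subtype.ext
      rfl
  obtain ⟨r, hr, y, hy⟩ := hR _ key
  have hy' : β ^ n = (((r : Lˣ) : L) : AlgebraicClosure ℚ) * (((y : Lˣ) : L) : AlgebraicClosure ℚ) ^ n := by
    have := congrArg (fun u : Lˣ => (((u : Lˣ) : L) : AlgebraicClosure ℚ)) hy
    simpa using this
  have hy0 : (((y : Lˣ) : L) : AlgebraicClosure ℚ) ≠ 0 := by
    intro h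
    exact y.ne_zero (Subtype.ext h)
  have hmemW : β / (((y : Lˣ) : L) : AlgebraicClosure ℚ) ∈ W := by
    refine ⟨r, hr, ?_⟩
    rw [div_pow, hy', mul_div_assoc, div_self (pow_ne_zero n hy0), mul_one]
  have h1 : β / (((y : Lˣ) : L) : AlgebraicClosure ℚ) ∈ L ⊔ adjoin ℚ W :=
    (le_sup_right : adjoin ℚ W ≤ L ⊔ adjoin ℚ W) (subset_adjoin ℚ W hmemW)
  have h2 : (((y : Lˣ) : L) : AlgebraicClosure ℚ) ∈ L ⊔ adjoin ℚ W :=
    (le_sup_left : L ≤ L ⊔ adjoin ℚ W) (y : L).2
  have := mul_mem h1 h2
  rwa [div_mul_cancel₀ _ hy0] at this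

end Fermat.Agent.S55.H901
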