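import Mathlib
import Fermat.Agent.S55.H901.SelmerFinite

/-!
# S55 / G5 (finiteness of `H¹(G_S, M)`): Mathlib-only core lemmas

* `dvd_toAdd_valuationOfNeZero_of_pow_eq`, `dvd_toAdd_valuationOfNeZero_of_unramified`:
  an element that becomes an `n`-th power in an extension unramified at `v` has `n ∣ v(b)`.
* `exists_finset_selmer_reps`: finitely many representatives modulo `n`-th powers for the
  elements with `n ∣ v(b)` outside a finite set `S` (from finiteness of the Selmer group).
* `exists_ne_zero_forall_smul_eq`: Hilbert 90 for a character of a finite group of automorphisms.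
-/

set_option autoImplicit false
set_option linter.style.haveILetI false
set_option linter.unusedSectionVars false

open IsDedekindDomain HeightOneSpectrum
open scoped NumberField

namespace Fermat.Agent.S55.H901

section AKLB

variable {A K : Type*} (L : Type*) {B : Type*}
variable [CommRing A] [IsDedekindDomain A] [CommRing B] [IsDedekindDomain B] [Algebra A B]
  [Module.IsTorsionFree A B]
variable [Field K] [Field L] [Algebra K L]
variable [Algebra A K] [IsFractionRing A K] [Algebra A L] [IsScalarTower A K L]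
variable [Algebra B L] [IsFractionRing B L] [IsScalarTower A B L]

/-- If `w | v` is unramified and `b ∈ Kˣ` becomes an `n`-th power in `L`, then `n ∣ v(b)`. -/
theorem dvd_toAdd_valuationOfNeZero_of_pow_eq
    (v : HeightOneSpectrum A) (w : HeightOneSpectrum B) [w.asIdeal.LiesOver v.asIdeal]
    (he : v.asIdeal.ramificationIdx' w.asIdeal = 1) (n : ℕ) (b : Kˣ) (β : L)
    (hβ : β ^ n = algebraMap K L (b : K)) :
    (n : ℤ) ∣ Multiplicative.toAdd (v.valuationOfNeZero b) := by
  have h1 := valuation_liesOver L v w (b : K)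
  rw [he, pow_one, ← hβ, map_pow, ← valuationOfNeZero_eq] at h1
  rcases Nat.eq_zero_or_pos n with hn | hn
  · subst hn
    rw [pow_zero] at h1
    have : v.valuationOfNeZero b = 1 := by exact_mod_cast h1
    rw [this]
    simp
  · have hβ0 : β ≠ 0 := by
      rintro rfl
      rw [zero_pow hn.ne'] at hβ
      exact b.ne_zero ((map_eq_zero _).1 hβ.symm)
    have hy : w.valuation L β ≠ 0 := (Valuation.ne_zero_iff _).2 hβ0
    obtain ⟨u, hu⟩ := WithZero.ne_zero_iff_exists.1 hy
    rw [← hu] at h1
    have h2 : v.valuationOfNeZero b = u ^ n := by exact_mod_cast h1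
    rw [h2]
    exact ⟨Multiplicative.toAdd u, by simp⟩

end AKLB

section NumberField

variable {K E : Type*} [Field K] [NumberField K] [Field E] [NumberField E] [Algebra K E]

omit [NumberField K] in
/-- The residue characteristic of a finite prime of a number field. -/
theorem exists_prime_natCast_mem (v : HeightOneSpectrum (𝓞 K)) :
    ∃ q : ℕ, q.Prime ∧ ((q : ℕ) : 𝓞 K) ∈ v.asIdeal ∧
      v.asIdeal.under ℤ = Ideal.span {(q : ℤ)} := by
  have hprime : (v.asIdeal.under ℤ).IsPrime := inferInstance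
  have hne : v.asIdeal.under ℤ ≠ ⊥ := Ideal.under_ne_bot ℤ v.ne_bot
  rcases Ideal.isPrime_int_iff.1 hprime with h | ⟨q, hq, h⟩
  · exact absurd h hne
  · refine ⟨q, hq, ?_, h⟩
    have : (q : ℤ) ∈ v.asIdeal.under ℤ := by
      rw [h]; exact Ideal.mem_span_singleton_self _
    rw [Ideal.under_def, Ideal.mem_comap] at this
    simpa using this

/-- **Unramified `n`-th roots have valuation divisible by `n`.**  `E/K` number fields such that
every prime of `E` with residue characteristic outside `S` is unramified over `ℤ`; `v` a prime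
of `K` with residue characteristic outside `S`.  If `b ∈ Kˣ` is an `n`-th power in `E`, then
`n ∣ v(b)`. -/
theorem dvd_toAdd_valuationOfNeZero_of_unramified (S : Set ℕ)
    (hE : ∀ (w : HeightOneSpectrum (𝓞 E)) (q : ℕ), q.Prime → q ∉ S →
      ((q : ℕ) : 𝓞 E) ∈ w.asIdeal → (Ideal.span {(q : ℤ)}).ramificationIdx' w.asIdeal = 1)
    (v : HeightOneSpectrum (𝓞 K)) (hv : ∀ q ∈ S, ((q : ℕ) : 𝓞 K) ∉ v.asIdeal)
    (n : ℕ) (b : Kˣ) (β : E) (hβ : β ^ n = algebraMap K E (b : K)) :
    (n : ℤ) ∣ Multiplicative.toAdd (v.valuationOfNeZero b) := by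
  obtain ⟨q, hq, hqv, hunder⟩ := exists_prime_natCast_mem v
  have hqS : q ∉ S := fun h => hv q h hqv
  obtain ⟨W, hWmax, hWover⟩ := Ideal.exists_maximal_ideal_liesOver_of_isIntegral (S := 𝓞 E) v.asIdeal
  have hWne : W ≠ ⊥ := by
    intro h
    have h1 : v.asIdeal = W.under (𝓞 K) := hWover.over
    rw [h] at h1
    have : v.asIdeal = ⊥ := by
      rw [h1]
      exact Ideal.under_bot _ _
    exact v.ne_bot this
  let w : HeightOneSpectrum (𝓞 E) := ⟨W, hWmax.isPrime, hWne⟩
  have : w.asIdeal.LiesOver v.asIdeal := hWover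
  have hqw : ((q : ℕ) : 𝓞 E) ∈ w.asIdeal := by
    have h1 : algebraMap (𝓞 K) (𝓞 E) ((q : ℕ) : 𝓞 K) ∈ W := by
      have : ((q : ℕ) : 𝓞 K) ∈ W.under (𝓞 K) := by rw [← hWover.over]; exact hqv
      exact this
    simpa using h1
  have he := hE w q hq hqS hqw
  have hq0 : ((q : ℤ)) ≠ 0 := by exact_mod_cast hq.ne_zero
  have htower := Ideal.ramificationIdx'_algebra_tower (R := ℤ) (S := 𝓞 K) (T := 𝓞 E)
    (p := Ideal.span {(q : ℤ)}) (P := v.asIdeal) (Q := w.asIdeal) ?_ ?_ ?_
  · rw [he] at htower
    have he' : v.asIdeal.ramificationIdx' w.asIdeal = 1 :=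
      (Nat.eq_one_of_mul_eq_one_left htower.symm)
    exact dvd_toAdd_valuationOfNeZero_of_pow_eq E v w he' n b β hβ
  · intro h
    rw [Ideal.map_eq_bot_iff_of_injective (FaithfulSMul.algebraMap_injective _ _)] at h
    exact v.ne_bot h
  · intro h
    rw [Ideal.map_eq_bot_iff_of_injective (FaithfulSMul.algebraMap_injective _ _)] at h
    rw [Ideal.span_singleton_eq_bot] at h
    exact hq0 h
  · exact Ideal.map_le_iff_le_comap.2 (le_of_eq hWover.over)

end NumberField

/-- Finitely many representatives for the elements of a number field whose valuations outside a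
finite set `S` of primes are all divisible by `n`. -/
theorem exists_finset_selmer_reps {F : Type*} [Field F] [NumberField F]
    {S : Set (HeightOneSpectrum (𝓞 F))} (hS : S.Finite) {n : ℕ} (hn : 0 < n) :
    ∃ R : Finset Fˣ, ∀ b : Fˣ,
      (∀ v : HeightOneSpectrum (𝓞 F), v ∉ S →
        (n : ℤ) ∣ Multiplicative.toAdd (v.valuationOfNeZero b)) →
      ∃ r ∈ R, ∃ y : Fˣ, b = r * y ^ n := by
  classical
  haveI := selmerGroup_finite (F := F) hS hn
  haveI : Fintype (selmerGroup (R := 𝓞 F) (K := F) (S := S) (n := n)) := Fintype.ofFinite _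
  refine ⟨Finset.univ.image
    (fun x : selmerGroup (R := 𝓞 F) (K := F) (S := S) (n := n) => Quotient.out x.1), ?_⟩
  intro b hb
  have hmem : (QuotientGroup.mk b : Fˣ ⧸ (powMonoidHom n : Fˣ →* Fˣ).range) ∈
      selmerGroup (R := 𝓞 F) (K := F) (S := S) (n := n) := by
    intro v hv
    exact (valuationOfNeZeroMod_mk_eq_one_iff v n b).2 (hb v hv)
  refine ⟨Quotient.out (QuotientGroup.mk b : Fˣ ⧸ (powMonoidHom n : Fˣ →* Fˣ).range), ?_, ?_⟩
  · exact Finset.mem_image.2 ⟨⟨_, hmem⟩, Finset.mem_univ _, rfl⟩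
  · have h1 : (QuotientGroup.mk (Quotient.out
        (QuotientGroup.mk b : Fˣ ⧸ (powMonoidHom n : Fˣ →* Fˣ).range)) :
        Fˣ ⧸ (powMonoidHom n : Fˣ →* Fˣ).range) = QuotientGroup.mk b :=
      Quotient.out_eq _
    rw [QuotientGroup.eq] at h1
    obtain ⟨y, hy⟩ := h1
    refine ⟨y, ?_⟩
    simp only [powMonoidHom_apply] at hy
    rw [hy]
    simp

/-- Hilbert 90 for a character: a finite group `T` acting faithfully on a field `E` by
automorphisms, and a homomorphism `z : T → Eˣ` with `T`-fixed values.  Then `z` is a coboundary: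
there is `β ≠ 0` with `σ β = z(σ) β`. -/
theorem exists_ne_zero_forall_smul_eq {E T : Type*} [Field E] [Group T] [Finite T]
    [MulSemiringAction T E] [FaithfulSMul T E]
    (z : T →* Eˣ) (hz : ∀ σ τ : T, σ • ((z τ : Eˣ) : E) = z τ) :
    ∃ β : E, β ≠ 0 ∧ ∀ σ : T, σ • β = (z σ : E) * β := by
  classical
  have : Fintype T := Fintype.ofFinite T
  -- Dedekind independence
  have hli : LinearIndependent E (fun τ : T => ((MulSemiringAction.toRingHom T E τ : E →* E) : E → E)) := by
    refine LinearIndependent.comp (ι' := T) (linearIndependent_monoidHom E E)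
      (fun τ => (MulSemiringAction.toRingHom T E τ : E →* E)) ?_
    intro σ τ h
    apply FaithfulSMul.eq_of_smul_eq_smul (α := E)
    intro x
    exact DFunLike.congr_fun h x
  have hne : ∃ x : E, ∑ τ : T, (((z τ)⁻¹ : Eˣ) : E) * τ • x ≠ 0 := by
    by_contra hcon
    push Not at hcon
    have h0 : ∑ τ : T, (((z τ)⁻¹ : Eˣ) : E) •
        ((MulSemiringAction.toRingHom T E τ : E →* E) : E → E) = 0 := by
      funext x
      simp only [Finset.sum_apply, Pi.smul_apply, smul_eq_mul, Pi.zero_apply]
      exact hcon x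
    have := (Fintype.linearIndependent_iff.1 hli) (fun τ => (((z τ)⁻¹ : Eˣ) : E)) h0 1
    exact Units.ne_zero _ this
  obtain ⟨x, hx⟩ := hne
  refine ⟨∑ τ : T, (((z τ)⁻¹ : Eˣ) : E) * τ • x, hx, fun σ => ?_⟩
  rw [Finset.smul_sum, Finset.mul_sum]
  refine Fintype.sum_bijective (fun τ => σ * τ) (Group.mulLeft_bijective σ) _ _ (fun τ => ?_)
  have h2 : σ • (((z τ)⁻¹ : Eˣ) : E) = ((z τ)⁻¹ : Eˣ) := by
    rw [Units.val_inv_eq_inv_val, smul_inv'', hz σ τ]
  rw [smul_mul', ← mul_smul, h2, map_mul, ← mul_assoc, ← Units.val_mul, mul_inv,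
    mul_inv_cancel_left]

end Fermat.Agent.S55.H901
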