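/-
S55 — GD10 = `Tow.H1FiniteSpec S p` (interface `Spec/Datum.lean`), helper901.
Adapter from `H901.finiteDimensional_continuousH1S`.  Sorry-free.
-/
import Fermat.Agent.S55.Spec.Datum
import Fermat.Agent.S55.H901.H1FinMain

set_option autoImplicit false

open groupCohomology ExtCitation

namespace Fermat.Agent.S55.H901

/-- **GD10**: `H¹_S(N)` is finite-dimensional for every finite `𝔽_p`-representation `N` of `G_ℚ`
factoring through a level of `S` (for `p ∈ S`). -/
theorem h1FiniteSpec (S : Finset Nat.Primes) (p : ℕ) [Fact p.Prime] (hpS : pPrime p ∈ S) :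
    Tow.H1FiniteSpec S p := by
  intro N _ hN
  obtain ⟨L, hL⟩ := hN
  refine finiteDimensional_continuousH1S S hpS N ?_ ?_
  · intro m
    refine ⟨L.F, L.unram.1, fun s hs => ?_⟩
    have h := hL s hs
    rw [h]
    rfl
  · intro q hq A hA g hg
    exact hL g (L.unram.2 q hq A hA hg)

/-- The same, as the conjunct needed by `E1.InputsSpec`. -/
theorem h1FiniteSpec_all :
    ∀ (p : ℕ) [Fact p.Prime], p ≠ 2 → ∀ (S : Finset Nat.Primes), pPrime p ∈ S →
      Tow.H1FiniteSpec S p :=
  fun p _ _ S hpS => h1FiniteSpec S p hpS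

end Fermat.Agent.S55.H901
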